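import Mathlib

/-!
# S16 (LOWER, package L3), part H1: abstract transfer-type Hecke operators on `Hom(Γ, A)`

`φ : Γ →* G` an injective group homomorphism, `α : ι → G` a finite family such that the union of
the cosets `φ(Γ) α i` is disjoint and stable under right multiplication by `φ(Γ)`:
`α i * φ γ = φ (coc γ i) * α (perm γ i)`.  The operator

  `(T ψ)(γ) = ∑ i, ψ (coc γ i)`

on `Additive Γ →+ A` is the usual double-coset (transfer) Hecke operator on `H¹(Γ, A)` with trivial
coefficients.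
-/

set_option autoImplicit false

namespace Fermat.Agent.S16.H27

open scoped BigOperators

section Transfer

variable {Γ G ι : Type*} [Group Γ] [Group G]

/-- A finite family `α` of elements of `G` whose `φ(Γ)`-cosets are pairwise disjoint and whose
union is stable under right multiplication by `φ(Γ)`. -/
structure IsHeckeFamily (φ : Γ →* G) (α : ι → G) : Prop where
  inj : Function.Injective φ
  disj : ∀ (i j : ι) (g : Γ), α i = φ g * α j → i = j
  stab : ∀ (γ : Γ) (i : ι), ∃ (j : ι) (g : Γ), α i * φ γ = φ g * α j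

namespace IsHeckeFamily

variable {φ : Γ →* G} {α : ι → G} (h : IsHeckeFamily φ α)

/-- The permutation of the index set induced by `γ`. -/
noncomputable def perm (γ : Γ) (i : ι) : ι := (h.stab γ i).choose

/-- The `Γ`-valued cocycle. -/
noncomputable def coc (γ : Γ) (i : ι) : Γ := (h.stab γ i).choose_spec.choose

theorem spec (γ : Γ) (i : ι) : α i * φ γ = φ (h.coc γ i) * α (h.perm γ i) :=
  (h.stab γ i).choose_spec.choose_spec

include h in
theorem rel_unique {j j' : ι} {g g' : Γ} (e : φ g * α j = φ g' * α j') : j = j' ∧ g = g' := by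
  have h1 : α j = φ (g⁻¹ * g') * α j' := by
    rw [map_mul, map_inv, mul_assoc, ← e, ← mul_assoc, inv_mul_cancel, one_mul]
  have hj : j = j' := h.disj j j' _ h1
  subst hj
  refine ⟨rfl, h.inj ?_⟩
  exact mul_right_cancel e

theorem unique {γ : Γ} {i j : ι} {g : Γ} (hrel : α i * φ γ = φ g * α j) :
    h.perm γ i = j ∧ h.coc γ i = g := by
  have e : φ (h.coc γ i) * α (h.perm γ i) = φ g * α j := by rw [← h.spec γ i, hrel]
  exact h.rel_unique e

theorem perm_eq {γ : Γ} {i j : ι} {g : Γ} (hrel : α i * φ γ = φ g * α j) : h.perm γ i = j :=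
  (h.unique hrel).1

theorem coc_eq {γ : Γ} {i j : ι} {g : Γ} (hrel : α i * φ γ = φ g * α j) : h.coc γ i = g :=
  (h.unique hrel).2

theorem rel_one (i : ι) : α i * φ 1 = φ 1 * α i := by simp

@[simp] theorem perm_one (i : ι) : h.perm 1 i = i := h.perm_eq (rel_one i)

@[simp] theorem coc_one (i : ι) : h.coc 1 i = 1 := h.coc_eq (rel_one i)

theorem rel_mul (γ δ : Γ) (i : ι) :
    α i * φ (γ * δ) = φ (h.coc γ i * h.coc δ (h.perm γ i)) * α (h.perm δ (h.perm γ i)) := by
  rw [map_mul, ← mul_assoc, h.spec γ i, mul_assoc, h.spec δ (h.perm γ i), ← mul_assoc, map_mul]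

theorem perm_mul (γ δ : Γ) (i : ι) : h.perm (γ * δ) i = h.perm δ (h.perm γ i) :=
  h.perm_eq (h.rel_mul γ δ i)

theorem coc_mul (γ δ : Γ) (i : ι) : h.coc (γ * δ) i = h.coc γ i * h.coc δ (h.perm γ i) :=
  h.coc_eq (h.rel_mul γ δ i)

/-- `perm γ` as a permutation of the index set. -/
noncomputable def permEquiv (γ : Γ) : ι ≃ ι where
  toFun := h.perm γ
  invFun := h.perm γ⁻¹
  left_inv i := by rw [← h.perm_mul, mul_inv_cancel, h.perm_one]
  right_inv i := by rw [← h.perm_mul, inv_mul_cancel, h.perm_one]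

@[simp] theorem permEquiv_apply (γ : Γ) (i : ι) : h.permEquiv γ i = h.perm γ i := rfl

theorem perm_bijective (γ : Γ) : Function.Bijective (h.perm γ) := (h.permEquiv γ).bijective

variable [Fintype ι] {A : Type*} [AddCommGroup A]

/-- The transfer-type Hecke operator on a single homomorphism. -/
noncomputable def heckeFun (ψ : Additive Γ →+ A) : Additive Γ →+ A where
  toFun γ := ∑ i, ψ (Additive.ofMul (h.coc (Additive.toMul γ) i))
  map_zero' := by
    simp only [toMul_zero, coc_one, ofMul_one, map_zero, Finset.sum_const_zero]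
  map_add' γ δ := by
    simp only [toMul_add, coc_mul, ofMul_mul, map_add, Finset.sum_add_distrib]
    congr 1
    exact (h.permEquiv (Additive.toMul γ)).sum_comp
      (fun i => ψ (Additive.ofMul (h.coc (Additive.toMul δ) i)))

theorem heckeFun_apply (ψ : Additive Γ →+ A) (γ : Γ) :
    h.heckeFun ψ (Additive.ofMul γ) = ∑ i, ψ (Additive.ofMul (h.coc γ i)) := rfl

/-- The transfer-type Hecke operator, as an `R`-linear endomorphism of `Hom(Γ, A)`. -/
noncomputable def heckeLin (R : Type*) [Semiring R] (A : Type*) [AddCommGroup A] [Module R A] :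
    (Additive Γ →+ A) →ₗ[R] (Additive Γ →+ A) where
  toFun ψ := h.heckeFun ψ
  map_add' ψ ψ' := by
    refine AddMonoidHom.ext fun γ => ?_
    show ∑ i, (ψ + ψ') _ = ∑ i, ψ _ + ∑ i, ψ' _
    simp only [AddMonoidHom.add_apply, Finset.sum_add_distrib]
  map_smul' c ψ := by
    refine AddMonoidHom.ext fun γ => ?_
    show ∑ i, (c • ψ) _ = c • ∑ i, ψ _
    simp only [AddMonoidHom.smul_apply, Finset.smul_sum]

theorem heckeLin_apply (R : Type*) [Semiring R] [Module R A] (ψ : Additive Γ →+ A) (γ : Γ) :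
    h.heckeLin R A ψ (Additive.ofMul γ) = ∑ i, ψ (Additive.ofMul (h.coc γ i)) := rfl

theorem heckeLin_eq_heckeFun (R : Type*) [Semiring R] [Module R A] (ψ : Additive Γ →+ A) :
    h.heckeLin R A ψ = h.heckeFun ψ := rfl

/-- Any explicit solution of the coset relation computes the operator. -/
theorem heckeFun_apply_of_rel (ψ : Additive Γ →+ A) (γ : Γ) (j : ι → ι) (g : ι → Γ)
    (hrel : ∀ i, α i * φ γ = φ (g i) * α (j i)) :
    h.heckeFun ψ (Additive.ofMul γ) = ∑ i, ψ (Additive.ofMul (g i)) := by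
  rw [heckeFun_apply]
  exact Finset.sum_congr rfl fun i _ => by rw [h.coc_eq (hrel i)]

/-- Naturality in the coefficient group. -/
theorem comp_heckeFun {B : Type*} [AddCommGroup B] (f : A →+ B) (ψ : Additive Γ →+ A) :
    f.comp (h.heckeFun ψ) = h.heckeFun (f.comp ψ) := by
  refine AddMonoidHom.ext fun γ => ?_
  show f (∑ i, ψ _) = ∑ i, f (ψ _)
  rw [map_sum]

/-- Compatibility with an automorphism `θ` of `Γ` that extends to an endomorphism `Θ` of `G`
permuting the representatives up to `φ(Γ)`.  (For `Θ = id`, `θ = id` this is the independence of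
the choice of representatives.) -/
theorem heckeFun_comp_equiv (θ : Γ ≃* Γ) (Θ : G →* G) (hΘ : ∀ γ, Θ (φ γ) = φ (θ γ))
    (π : ι ≃ ι) (t : ι → Γ) (hα : ∀ i, Θ (α i) = φ (t i) * α (π i)) (ψ : Additive Γ →+ A) :
    h.heckeFun (ψ.comp (MonoidHom.toAdditive θ.toMonoidHom)) =
      (h.heckeFun ψ).comp (MonoidHom.toAdditive θ.toMonoidHom) := by
  refine AddMonoidHom.ext fun γ' => ?_
  obtain ⟨γ, rfl⟩ : ∃ γ : Γ, Additive.ofMul γ = γ' := ⟨Additive.toMul γ', rfl⟩
  have key : ∀ i, h.coc (θ γ) (π i) = (t i)⁻¹ * θ (h.coc γ i) * t (h.perm γ i) := by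
    intro i
    refine h.coc_eq (j := π (h.perm γ i)) ?_
    have e := congrArg Θ (h.spec γ i)
    rw [map_mul, map_mul, hΘ, hΘ, hα, hα] at e
    -- `φ (t i) * α (π i) * φ (θ γ) = φ (θ (coc γ i)) * (φ (t (perm γ i)) * α (π (perm γ i)))`
    have e2 : α (π i) * φ (θ γ) =
        (φ (t i))⁻¹ * (φ (θ (h.coc γ i)) * (φ (t (h.perm γ i)) * α (π (h.perm γ i)))) := by
      rw [← e, mul_assoc, inv_mul_cancel_left]
    rw [e2, map_mul, map_mul, map_inv]
    simp only [mul_assoc]
  show h.heckeFun (ψ.comp (MonoidHom.toAdditive θ.toMonoidHom)) (Additive.ofMul γ) =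
    h.heckeFun ψ (Additive.ofMul (θ γ))
  have e1 : h.heckeFun ψ (Additive.ofMul (θ γ)) =
      ∑ i, ψ (Additive.ofMul (h.coc (θ γ) (π i))) := by
    rw [heckeFun_apply]
    exact (π.sum_comp (fun i => ψ (Additive.ofMul (h.coc (θ γ) i)))).symm
  rw [e1, heckeFun_apply]
  simp only [key, ofMul_mul, ofMul_inv, map_add, map_neg, Finset.sum_add_distrib,
    Finset.sum_neg_distrib]
  have e3 : ∑ i, ψ (Additive.ofMul (t (h.perm γ i))) = ∑ i, ψ (Additive.ofMul (t i)) :=
    (h.permEquiv γ).sum_comp (fun i => ψ (Additive.ofMul (t i)))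
  rw [e3]
  have e4 : ∀ i, (ψ.comp (MonoidHom.toAdditive θ.toMonoidHom)) (Additive.ofMul (h.coc γ i)) =
      ψ (Additive.ofMul (θ (h.coc γ i))) := fun i => rfl
  simp only [e4]
  abel

end IsHeckeFamily

end Transfer

end Fermat.Agent.S16.H27
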