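import Mathlib
import Fermat.Prelude.Thm_ModularForm_heckeT_slash_eq_self_of_mem_Gamma0
import Fermat.Prelude.Def_ModularCurve_PeriodHomPair
import Fermat.Agent.S16.H27.Transfer

/-!
# S16 (LOWER, package L3), part H2: the Hecke families `T_ℓ`, `U_q` for `Γ₀(N)`

The representatives are literally those of the Prelude's `heckeT` / `heckeU`
(`heckeRep ℓ : OnePoint (ZMod ℓ) → GL (Fin 2) ℝ`, `fun x : ZMod q => heckeMatrix q x.val`).
-/

set_option autoImplicit false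

open CongruenceSubgroup Matrix.SpecialLinearGroup ModularForm
open P2MW.S_ModularForm_heckeT_slash_eq_self_of_mem_Gamma0.ModularForm.HeckeSlashInvariance
open scoped MatrixGroups

namespace Fermat.Agent.S16.H27

/-- The embedding of `Γ₀(N)` into `GL₂(ℝ)` (the one through which `SL(2, ℤ)` acts on `ℍ`). -/
noncomputable def gamma0GL (N : ℕ) : ↥(Gamma0 N) →* GL (Fin 2) ℝ :=
  (mapGL ℝ).comp (Gamma0 N).subtype

theorem gamma0GL_apply {N : ℕ} (γ : Gamma0 N) : gamma0GL N γ = mapGL ℝ (γ : SL(2, ℤ)) := rfl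

theorem mapGL_real_injective : Function.Injective (mapGL ℝ : SL(2, ℤ) →* GL (Fin 2) ℝ) := by
  intro g g' h
  ext i j
  have := congrArg (fun M : GL (Fin 2) ℝ => M i j) h
  simp only [mapGL_apply] at this
  exact_mod_cast this

theorem gamma0GL_injective (N : ℕ) : Function.Injective (gamma0GL N) := fun _ _ h =>
  Subtype.ext (mapGL_real_injective h)

/-- Entry-wise form of a coset relation between upper triangular integral representatives. -/
theorem entries_of_rel {A B : GL (Fin 2) ℝ} {a b d a' b' d' : ℤ}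
    (hA : (A : Matrix (Fin 2) (Fin 2) ℝ) = !![(a : ℝ), (b : ℝ); 0, (d : ℝ)])
    (hB : (B : Matrix (Fin 2) (Fin 2) ℝ) = !![(a' : ℝ), (b' : ℝ); 0, (d' : ℝ)])
    {g g' : SL(2, ℤ)} (h : A * mapGL ℝ g = mapGL ℝ g' * B) :
    a * g 0 0 + b * g 1 0 = g' 0 0 * a' ∧ a * g 0 1 + b * g 1 1 = g' 0 0 * b' + g' 0 1 * d' ∧
    d * g 1 0 = g' 1 0 * a' ∧ d * g 1 1 = g' 1 0 * b' + g' 1 1 * d' := by
  have e : ∀ i j, ((A * mapGL ℝ g : GL (Fin 2) ℝ) : Matrix (Fin 2) (Fin 2) ℝ) i j =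
      ((mapGL ℝ g' * B : GL (Fin 2) ℝ) : Matrix (Fin 2) (Fin 2) ℝ) i j := fun i j => by rw [h]
  have e00 := e 0 0
  have e01 := e 0 1
  have e10 := e 1 0
  have e11 := e 1 1
  simp only [Matrix.GeneralLinearGroup.coe_mul, Matrix.mul_apply, Fin.sum_univ_two, hA, hB,
    mapGL_apply, Matrix.of_apply, Matrix.cons_val_zero, Matrix.cons_val_one,
    Matrix.cons_val', Matrix.cons_val_fin_one] at e00 e01 e10 e11
  refine ⟨?_, ?_, ?_, ?_⟩
  · have : ((a * g 0 0 + b * g 1 0 : ℤ) : ℝ) = ((g' 0 0 * a' : ℤ) : ℝ) := by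
      push_cast; linarith
    exact_mod_cast this
  · have : ((a * g 0 1 + b * g 1 1 : ℤ) : ℝ) = ((g' 0 0 * b' + g' 0 1 * d' : ℤ) : ℝ) := by
      push_cast; linarith
    exact_mod_cast this
  · have : ((d * g 1 0 : ℤ) : ℝ) = ((g' 1 0 * a' : ℤ) : ℝ) := by
      push_cast; linarith
    exact_mod_cast this
  · have : ((d * g 1 1 : ℤ) : ℝ) = ((g' 1 0 * b' + g' 1 1 * d' : ℤ) : ℝ) := by
      push_cast; linarith
    exact_mod_cast this

theorem det_eq' (g : SL(2, ℤ)) : g 0 0 * g 1 1 - g 0 1 * g 1 0 = 1 := det_eq g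

theorem one_apply_00 : (1 : SL(2, ℤ)) 0 0 = 1 := by simp
theorem one_apply_01 : (1 : SL(2, ℤ)) 0 1 = 0 := by simp
theorem one_apply_10 : (1 : SL(2, ℤ)) 1 0 = 0 := by simp
theorem one_apply_11 : (1 : SL(2, ℤ)) 1 1 = 1 := by simp

/-! ### The family for `T_ℓ`, `ℓ ∤ N` -/

section FamT

variable (ℓ : ℕ) [Fact ℓ.Prime]

/-- Upper left entry of `heckeRep ℓ x`. -/
def aT (x : OnePoint (ZMod ℓ)) : ℤ := x.elim (ℓ : ℤ) (fun _ => 1)

/-- Upper right entry of `heckeRep ℓ x`. -/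
def bT (x : OnePoint (ZMod ℓ)) : ℤ := x.elim 0 (fun j => (j.val : ℤ))

/-- Lower right entry of `heckeRep ℓ x`. -/
def dT (x : OnePoint (ZMod ℓ)) : ℤ := x.elim 1 (fun _ => (ℓ : ℤ))

theorem val_heckeRep (x : OnePoint (ZMod ℓ)) :
    ((heckeRep ℓ x : GL (Fin 2) ℝ) : Matrix (Fin 2) (Fin 2) ℝ) =
      !![(aT ℓ x : ℝ), (bT ℓ x : ℝ); 0, (dT ℓ x : ℝ)] := by
  have hℓ0 : ℓ ≠ 0 := (Fact.out : ℓ.Prime).ne_zero
  induction x using OnePoint.rec with
  | infty =>
    rw [heckeRep_infty, val_heckeDiagMatrix hℓ0]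
    simp [aT, bT, dT]
  | coe j =>
    rw [heckeRep_coe, val_heckeMatrix hℓ0]
    simp [aT, bT, dT]

theorem disj_heckeRep {N : ℕ} (x y : OnePoint (ZMod ℓ)) (g : Gamma0 N)
    (h : heckeRep ℓ x = gamma0GL N g * heckeRep ℓ y) : x = y := by
  have hℓ : ℓ.Prime := Fact.out
  have h' : heckeRep ℓ x * mapGL ℝ (1 : SL(2, ℤ)) = mapGL ℝ (g : SL(2, ℤ)) * heckeRep ℓ y := by
    rw [map_one, mul_one]; exact h
  obtain ⟨e1, e2, e3, -⟩ := entries_of_rel (val_heckeRep ℓ x) (val_heckeRep ℓ y) h'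
  simp only [one_apply_00, one_apply_01, one_apply_10, one_apply_11, mul_one, mul_zero,
    add_zero, zero_add] at e1 e2 e3
  have hdet := det_eq' (g : SL(2, ℤ))
  have hℓ2 : (2 : ℤ) ≤ ℓ := by exact_mod_cast hℓ.two_le
  induction x using OnePoint.rec with
  | infty =>
    induction y using OnePoint.rec with
    | infty => rfl
    | coe j' =>
      exfalso
      simp only [aT, bT, dT, OnePoint.elim_infty, OnePoint.elim_some] at e1 e2 e3
      -- `g 0 0 = ℓ`, `g 1 0 = 0`, so `ℓ ∣ 1`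
      have h10 : (g : SL(2, ℤ)) 1 0 = 0 := by linarith
      have h00 : (g : SL(2, ℤ)) 0 0 = ℓ := by linarith
      rw [h10, h00] at hdet
      have : (ℓ : ℤ) ∣ 1 := ⟨(g : SL(2, ℤ)) 1 1, by linarith⟩
      have := Int.le_of_dvd one_pos this
      omega
  | coe j =>
    induction y using OnePoint.rec with
    | infty =>
      exfalso
      simp only [aT, bT, dT, OnePoint.elim_infty, OnePoint.elim_some] at e1 e2 e3
      have : (ℓ : ℤ) ∣ 1 := ⟨(g : SL(2, ℤ)) 0 0, by linarith⟩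
      have := Int.le_of_dvd one_pos this
      omega
    | coe j' =>
      simp only [aT, bT, dT, OnePoint.elim_some] at e1 e2 e3
      have h00 : (g : SL(2, ℤ)) 0 0 = 1 := by linarith
      rw [h00] at e2
      have : ((j.val : ℤ) : ZMod ℓ) = ((j'.val : ℤ) : ZMod ℓ) := by
        have := congrArg (Int.cast : ℤ → ZMod ℓ) e2
        push_cast at this
        simpa using this
      simp only [Int.cast_natCast, ZMod.natCast_zmod_val] at this
      rw [this]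

/-- The representatives of `T_ℓ` form a Hecke family for `Γ₀(N)`, `ℓ ∤ N`. -/
theorem isHeckeFamily_T {N : ℕ} (hℓN : ¬ ℓ ∣ N) : IsHeckeFamily (gamma0GL N) (heckeRep ℓ) where
  inj := gamma0GL_injective N
  disj := disj_heckeRep ℓ
  stab γ x := by
    have hcN : (N : ℤ) ∣ (γ : SL(2, ℤ)) 1 0 :=
      (ZMod.intCast_zmod_eq_zero_iff_dvd _ _).mp (Gamma0_mem.mp γ.2)
    obtain ⟨g', hg', hmul⟩ := heckeRep_mul hℓN (γ : SL(2, ℤ)) hcN x
    exact ⟨_, ⟨g', Gamma0_mem.mpr ((ZMod.intCast_zmod_eq_zero_iff_dvd _ _).mpr hg')⟩, hmul⟩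

end FamT

/-! ### The family for `U_q`, `q ∣ N` -/

section FamU

variable (q : ℕ) [NeZero q]

/-- The representatives of `U_q`. -/
noncomputable def repU (x : ZMod q) : GL (Fin 2) ℝ := heckeMatrix q x.val

theorem val_repU (x : ZMod q) :
    ((repU q x : GL (Fin 2) ℝ) : Matrix (Fin 2) (Fin 2) ℝ) =
      !![((1 : ℤ) : ℝ), (((x.val : ℕ) : ℤ) : ℝ); 0, (((q : ℕ) : ℤ) : ℝ)] := by
  rw [repU, val_heckeMatrix (NeZero.ne q)]
  simp

theorem disj_repU {N : ℕ} (x y : ZMod q) (g : Gamma0 N)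
    (h : repU q x = gamma0GL N g * repU q y) : x = y := by
  have h' : repU q x * mapGL ℝ (1 : SL(2, ℤ)) = mapGL ℝ (g : SL(2, ℤ)) * repU q y := by
    rw [map_one, mul_one]; exact h
  obtain ⟨e1, e2, -, -⟩ := entries_of_rel (val_repU q x) (val_repU q y) h'
  simp only [one_apply_00, one_apply_01, one_apply_10, one_apply_11, mul_one, mul_zero,
    add_zero, zero_add] at e1 e2
  rw [← e1, one_mul] at e2
  have : ((x.val : ℤ) : ZMod q) = ((y.val : ℤ) : ZMod q) := by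
    have := congrArg (Int.cast : ℤ → ZMod q) e2
    push_cast at this
    simpa using this
  simp only [Int.cast_natCast, ZMod.natCast_zmod_val] at this
  exact this

/-- The representatives of `U_q` form a Hecke family for `Γ₀(N)`, `q ∣ N`. -/
theorem isHeckeFamily_U {N : ℕ} (hqN : q ∣ N) : IsHeckeFamily (gamma0GL N) (repU q) where
  inj := gamma0GL_injective N
  disj := disj_repU q
  stab γ x := by
    have hcN : (N : ℤ) ∣ (γ : SL(2, ℤ)) 1 0 :=
      (ZMod.intCast_zmod_eq_zero_iff_dvd _ _).mp (Gamma0_mem.mp γ.2)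
    have hc : (q : ℤ) ∣ (γ : SL(2, ℤ)) 1 0 := (Int.natCast_dvd_natCast.mpr hqN).trans hcN
    obtain ⟨g', hg', hmul⟩ := heckeMatrix_mul_of_dvd (γ : SL(2, ℤ)) hc x
    refine ⟨_, ⟨g', ?_⟩, hmul⟩
    rw [Gamma0_mem, hg']
    push_cast
    rw [Gamma0_mem.mp γ.2, mul_zero]

end FamU

/-! ### The operators -/

section Operators

variable {N : ℕ}

/-- `T_ℓ` on `Hom(Γ₀(N), A)`. -/
noncomputable def homT (ℓ : ℕ) [Fact ℓ.Prime] (hℓN : ¬ ℓ ∣ N) (R : Type*) [Semiring R]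
    (A : Type*) [AddCommGroup A] [Module R A] :
    (Additive (Gamma0 N) →+ A) →ₗ[R] (Additive (Gamma0 N) →+ A) :=
  (isHeckeFamily_T ℓ hℓN).heckeLin R A

/-- `U_q` on `Hom(Γ₀(N), A)`. -/
noncomputable def homU (q : ℕ) [NeZero q] (hqN : q ∣ N) (R : Type*) [Semiring R]
    (A : Type*) [AddCommGroup A] [Module R A] :
    (Additive (Gamma0 N) →+ A) →ₗ[R] (Additive (Gamma0 N) →+ A) :=
  (isHeckeFamily_U q hqN).heckeLin R A

theorem homT_apply (ℓ : ℕ) [Fact ℓ.Prime] (hℓN : ¬ ℓ ∣ N) (R : Type*) [Semiring R]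
    {A : Type*} [AddCommGroup A] [Module R A] (ψ : Additive (Gamma0 N) →+ A) (γ : Gamma0 N) :
    homT ℓ hℓN R A ψ (Additive.ofMul γ) =
      ∑ x, ψ (Additive.ofMul ((isHeckeFamily_T ℓ hℓN).coc γ x)) := rfl

theorem homU_apply (q : ℕ) [NeZero q] (hqN : q ∣ N) (R : Type*) [Semiring R]
    {A : Type*} [AddCommGroup A] [Module R A] (ψ : Additive (Gamma0 N) →+ A) (γ : Gamma0 N) :
    homU q hqN R A ψ (Additive.ofMul γ) =
      ∑ x, ψ (Additive.ofMul ((isHeckeFamily_U q hqN).coc γ x)) := rfl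

/-- The defining relation of the cocycle of `T_ℓ`, in `GL₂(ℝ)` (consumed by the period
computation). -/
theorem spec_T (ℓ : ℕ) [Fact ℓ.Prime] (hℓN : ¬ ℓ ∣ N) (γ : Gamma0 N) (x : OnePoint (ZMod ℓ)) :
    heckeRep ℓ x * mapGL ℝ (γ : SL(2, ℤ)) =
      mapGL ℝ (((isHeckeFamily_T ℓ hℓN).coc γ x : Gamma0 N) : SL(2, ℤ)) *
        heckeRep ℓ ((isHeckeFamily_T ℓ hℓN).perm γ x) :=
  (isHeckeFamily_T ℓ hℓN).spec γ x

/-- The defining relation of the cocycle of `U_q`, in `GL₂(ℝ)`. -/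
theorem spec_U (q : ℕ) [NeZero q] (hqN : q ∣ N) (γ : Gamma0 N) (x : ZMod q) :
    heckeMatrix q x.val * mapGL ℝ (γ : SL(2, ℤ)) =
      mapGL ℝ (((isHeckeFamily_U q hqN).coc γ x : Gamma0 N) : SL(2, ℤ)) *
        heckeMatrix q ((isHeckeFamily_U q hqN).perm γ x).val :=
  (isHeckeFamily_U q hqN).spec γ x

end Operators

end Fermat.Agent.S16.H27
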