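import Mathlib
import Fermat.Agent.S16.H27.Gamma0

/-!
# S16 (LOWER, package L3), part H3: the Hecke operators on `Hom(Γ₀(N), A)` commute with the
involution `charInvolution` (conjugation by `diag(-1, 1)`).
-/

set_option autoImplicit false

open CongruenceSubgroup Matrix.SpecialLinearGroup ModularForm ModularCurve.Period
open P2MW.S_ModularForm_heckeT_slash_eq_self_of_mem_Gamma0.ModularForm.HeckeSlashInvariance
open scoped MatrixGroups OnePoint

namespace Fermat.Agent.S16.H27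

/-- `J = diag(-1, 1)`. -/
noncomputable def Jmat : GL (Fin 2) ℝ :=
  Matrix.GeneralLinearGroup.mkOfDetNeZero !![(-1 : ℝ), 0; 0, 1] (by simp [Matrix.det_fin_two_of])

theorem val_Jmat : (Jmat : Matrix (Fin 2) (Fin 2) ℝ) = !![(-1 : ℝ), 0; 0, 1] := rfl

theorem Jmat_mul_self : Jmat * Jmat = 1 := by
  apply Units.ext
  rw [Units.val_mul, val_Jmat]
  ext i j
  fin_cases i <;> fin_cases j <;> simp [Matrix.mul_apply, Fin.sum_univ_two]

theorem Jmat_inv : Jmat⁻¹ = Jmat := inv_eq_of_mul_eq_one_left Jmat_mul_self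

/-- Conjugation by `J`. -/
noncomputable def conjJ : GL (Fin 2) ℝ →* GL (Fin 2) ℝ := (MulAut.conj Jmat).toMonoidHom

theorem conjJ_apply (M : GL (Fin 2) ℝ) : conjJ M = Jmat * M * Jmat := by
  show Jmat * M * Jmat⁻¹ = _
  rw [Jmat_inv]

/-- Entries of `J * M * J`. -/
theorem val_conjJ (M : GL (Fin 2) ℝ) :
    ((conjJ M : GL (Fin 2) ℝ) : Matrix (Fin 2) (Fin 2) ℝ) =
      !![M 0 0, -M 0 1; -M 1 0, M 1 1] := by
  rw [conjJ_apply, Units.val_mul, Units.val_mul, val_Jmat,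
    Matrix.eta_fin_two (M : Matrix (Fin 2) (Fin 2) ℝ), Matrix.mul_fin_two, Matrix.mul_fin_two]
  ext i j
  fin_cases i <;> fin_cases j <;> simp

theorem conjJ_mapGL (g : SL(2, ℤ)) : conjJ (mapGL ℝ g) = mapGL ℝ (jConjSL g) := by
  apply Units.ext
  rw [val_conjJ]
  ext i j
  fin_cases i <;> fin_cases j <;> simp [jConjMat]

/-- The involution `jConjGamma0` as a group automorphism. -/
noncomputable def jEquiv (N : ℕ) : Gamma0 N ≃* Gamma0 N where
  toFun := jConjGamma0 N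
  invFun := jConjGamma0 N
  left_inv := jConjGamma0_jConjGamma0 N
  right_inv := jConjGamma0_jConjGamma0 N
  map_mul' := map_mul _

theorem conjJ_gamma0GL {N : ℕ} (γ : Gamma0 N) :
    conjJ (gamma0GL N γ) = gamma0GL N (jEquiv N γ) :=
  conjJ_mapGL (γ : SL(2, ℤ))

/-- The translation matrix `[[1, -k], [0, 1]]` as an element of `Γ₀(N)`. -/
def shiftSL (k : ℤ) : SL(2, ℤ) := ⟨!![1, -k; 0, 1], by simp [Matrix.det_fin_two_of]⟩

/-- The translation matrix `[[1, -k], [0, 1]]` as an element of `Γ₀(N)`. -/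
def shiftG (N : ℕ) (k : ℤ) : Gamma0 N :=
  ⟨shiftSL k, by
    rw [Gamma0_mem]
    simp [shiftSL]⟩

theorem shiftG_apply_00 (N : ℕ) (k : ℤ) : ((shiftG N k : Gamma0 N) : SL(2, ℤ)) 0 0 = 1 := rfl
theorem shiftG_apply_01 (N : ℕ) (k : ℤ) : ((shiftG N k : Gamma0 N) : SL(2, ℤ)) 0 1 = -k := rfl
theorem shiftG_apply_10 (N : ℕ) (k : ℤ) : ((shiftG N k : Gamma0 N) : SL(2, ℤ)) 1 0 = 0 := rfl
theorem shiftG_apply_11 (N : ℕ) (k : ℤ) : ((shiftG N k : Gamma0 N) : SL(2, ℤ)) 1 1 = 1 := rfl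

/-- `j + (-j) ≡ 0` for the canonical representatives. -/
theorem exists_val_add_val_neg {q : ℕ} [NeZero q] (j : ZMod q) :
    ∃ k : ℤ, ((j.val : ℤ) + ((-j).val : ℤ)) = k * q := by
  have : (q : ℤ) ∣ (j.val : ℤ) + ((-j).val : ℤ) := by
    rw [← ZMod.intCast_zmod_eq_zero_iff_dvd]
    push_cast
    rw [ZMod.natCast_zmod_val, ZMod.natCast_zmod_val, add_neg_cancel]
  obtain ⟨k, hk⟩ := this
  exact ⟨k, by rw [hk, mul_comm]⟩

/-- Conjugating `[[1, j], [0, q]]` by `J`. -/
theorem conjJ_heckeMatrix {N q : ℕ} [NeZero q] (j : ZMod q) {k : ℤ}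
    (hk : ((j.val : ℤ) + ((-j).val : ℤ)) = k * q) :
    conjJ (heckeMatrix q j.val) = gamma0GL N (shiftG N k) * heckeMatrix q (-j).val := by
  have hq : q ≠ 0 := NeZero.ne q
  have hk' : ((j.cast : ℝ) + ((-j).cast : ℝ)) = k * q := by
    have : ((j.val : ℝ) + ((-j).val : ℝ)) = k * q := by exact_mod_cast hk
    simpa using this
  apply Units.ext
  rw [val_conjJ, gamma0GL_apply, Units.val_mul, val_heckeMatrix hq]
  ext a b
  fin_cases a <;> fin_cases b <;>
    simp [Matrix.mul_apply, Fin.sum_univ_two, val_heckeMatrix hq, shiftG_apply_00,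
      shiftG_apply_01, shiftG_apply_10, shiftG_apply_11]
  linarith

theorem conjJ_heckeDiagMatrix (ℓ : ℕ) (hℓ : ℓ ≠ 0) :
    conjJ (heckeDiagMatrix ℓ) = heckeDiagMatrix ℓ := by
  apply Units.ext
  rw [val_conjJ, val_heckeDiagMatrix hℓ]
  ext a b
  fin_cases a <;> fin_cases b <;> simp

theorem jEquiv_toMonoidHom (N : ℕ) : (jEquiv N).toMonoidHom = jConjGamma0 N := rfl

section T

variable (ℓ : ℕ) [Fact ℓ.Prime]

/-- `x ↦ -x` on `ℙ¹(𝔽_ℓ)`. -/
def negPerm : OnePoint (ZMod ℓ) ≃ OnePoint (ZMod ℓ) where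
  toFun x := x.elim ∞ (fun j => ((-j : ZMod ℓ) : OnePoint (ZMod ℓ)))
  invFun x := x.elim ∞ (fun j => ((-j : ZMod ℓ) : OnePoint (ZMod ℓ)))
  left_inv x := by induction x using OnePoint.rec <;> simp
  right_inv x := by induction x using OnePoint.rec <;> simp

/-- The correcting translations for the representatives of `T_ℓ`. -/
noncomputable def shiftT (N : ℕ) (x : OnePoint (ZMod ℓ)) : Gamma0 N :=
  x.elim 1 (fun j => shiftG N (exists_val_add_val_neg j).choose)

theorem conjJ_heckeRep {N : ℕ} (x : OnePoint (ZMod ℓ)) :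
    conjJ (heckeRep ℓ x) = gamma0GL N (shiftT ℓ N x) * heckeRep ℓ (negPerm ℓ x) := by
  induction x using OnePoint.rec with
  | infty =>
    show conjJ (heckeDiagMatrix ℓ) = gamma0GL N 1 * heckeDiagMatrix ℓ
    rw [map_one, one_mul, conjJ_heckeDiagMatrix ℓ (Fact.out : ℓ.Prime).ne_zero]
  | coe j => exact conjJ_heckeMatrix j (exists_val_add_val_neg j).choose_spec

/-- `T_ℓ` commutes with the involution. -/
theorem heckeFun_T_charInvolution {N : ℕ} (hℓN : ¬ ℓ ∣ N) (R : Type*) [Semiring R]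
    {A : Type*} [AddCommGroup A] [Module R A] (ψ : Additive (Gamma0 N) →+ A) :
    (isHeckeFamily_T ℓ hℓN).heckeFun (charInvolution N R A ψ) =
      charInvolution N R A ((isHeckeFamily_T ℓ hℓN).heckeFun ψ) :=
  (isHeckeFamily_T ℓ hℓN).heckeFun_comp_equiv (jEquiv N) conjJ conjJ_gamma0GL (negPerm ℓ)
    (shiftT ℓ N) (conjJ_heckeRep ℓ) ψ

theorem homT_charInvolution {N : ℕ} (hℓN : ¬ ℓ ∣ N) (R : Type*) [Semiring R]
    {A : Type*} [AddCommGroup A] [Module R A] (ψ : Additive (Gamma0 N) →+ A) :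
    homT ℓ hℓN R A (charInvolution N R A ψ) = charInvolution N R A (homT ℓ hℓN R A ψ) :=
  heckeFun_T_charInvolution ℓ hℓN R ψ

end T

section U

variable (q : ℕ) [NeZero q]

/-- The correcting translations for the representatives of `U_q`. -/
noncomputable def shiftU (N : ℕ) (x : ZMod q) : Gamma0 N :=
  shiftG N (exists_val_add_val_neg x).choose

theorem conjJ_repU {N : ℕ} (x : ZMod q) :
    conjJ (repU q x) = gamma0GL N (shiftU q N x) * repU q ((Equiv.neg (ZMod q)) x) :=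
  conjJ_heckeMatrix x (exists_val_add_val_neg x).choose_spec

/-- `U_q` commutes with the involution. -/
theorem heckeFun_U_charInvolution {N : ℕ} (hqN : q ∣ N) (R : Type*) [Semiring R]
    {A : Type*} [AddCommGroup A] [Module R A] (ψ : Additive (Gamma0 N) →+ A) :
    (isHeckeFamily_U q hqN).heckeFun (charInvolution N R A ψ) =
      charInvolution N R A ((isHeckeFamily_U q hqN).heckeFun ψ) :=
  (isHeckeFamily_U q hqN).heckeFun_comp_equiv (jEquiv N) conjJ conjJ_gamma0GL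
    (Equiv.neg (ZMod q)) (shiftU q N) (conjJ_repU q) ψ

theorem homU_charInvolution {N : ℕ} (hqN : q ∣ N) (R : Type*) [Semiring R]
    {A : Type*} [AddCommGroup A] [Module R A] (ψ : Additive (Gamma0 N) →+ A) :
    homU q hqN R A (charInvolution N R A ψ) = charInvolution N R A (homU q hqN R A ψ) :=
  heckeFun_U_charInvolution q hqN R ψ

end U

end Fermat.Agent.S16.H27
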