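import Mathlib
import Fermat.Agent.S16.H27.Gamma0

/-!
# S16 (LOWER, package L3), part H4: the Shimura class is an Eisenstein eigenclass

For an additive character `lam` of `(ℤ/N)ˣ` the homomorphism
`shimura N lam : γ ↦ lam (d_γ mod N)` on `Γ₀(N)` satisfies
`T_ℓ (shimura lam) = (ℓ + 1) • shimura lam` (`ℓ ∤ N`) and `U_q (shimura lam) = q • shimura lam`
(`q ∣ N`).
-/

set_option autoImplicit false

open CongruenceSubgroup Matrix.SpecialLinearGroup ModularForm
open P2MW.S_ModularForm_heckeT_slash_eq_self_of_mem_Gamma0.ModularForm.HeckeSlashInvariance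
open scoped MatrixGroups

namespace Fermat.Agent.S16.H27

variable {N : ℕ}

/-- The lower right entry modulo `N`, as a homomorphism `Γ₀(N) → (ℤ/N)ˣ`. -/
noncomputable def dUnit (N : ℕ) : Gamma0 N →* (ZMod N)ˣ := (Gamma0Map N).toHomUnits

theorem coe_dUnit (γ : Gamma0 N) :
    ((dUnit N γ : (ZMod N)ˣ) : ZMod N) = (((γ : SL(2, ℤ)) 1 1 : ℤ) : ZMod N) := rfl

/-- The Shimura class attached to an additive character of `(ℤ/N)ˣ`. -/
noncomputable def shimura (N : ℕ) {A : Type*} [AddCommGroup A] (lam : Additive (ZMod N)ˣ →+ A) :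
    Additive (Gamma0 N) →+ A :=
  lam.comp (MonoidHom.toAdditive (dUnit N))

theorem shimura_apply {A : Type*} [AddCommGroup A] (lam : Additive (ZMod N)ˣ →+ A)
    (γ : Gamma0 N) :
    shimura N lam (Additive.ofMul γ) = lam (Additive.ofMul (dUnit N γ)) := rfl

theorem lower_left_zmod (γ : Gamma0 N) : (((γ : SL(2, ℤ)) 1 0 : ℤ) : ZMod N) = 0 :=
  Gamma0_mem.mp γ.2

section T

variable (ℓ : ℕ) [Fact ℓ.Prime]

/-- The unit `d(α_x) mod N` for the representatives of `T_ℓ`. -/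
noncomputable def deltaT (hℓN : ¬ ℓ ∣ N) (x : OnePoint (ZMod ℓ)) : (ZMod N)ˣ :=
  x.elim 1 (fun _ => ZMod.unitOfCoprime ℓ
    ((Nat.Prime.coprime_iff_not_dvd Fact.out).mpr hℓN))

theorem coe_deltaT (hℓN : ¬ ℓ ∣ N) (x : OnePoint (ZMod ℓ)) :
    ((deltaT ℓ hℓN x : (ZMod N)ˣ) : ZMod N) = ((dT ℓ x : ℤ) : ZMod N) := by
  induction x using OnePoint.rec with
  | infty => simp [deltaT, dT]
  | coe j => simp [deltaT, dT]

theorem dUnit_coc_T (hℓN : ¬ ℓ ∣ N) (γ : Gamma0 N) (x : OnePoint (ZMod ℓ)) :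
    dUnit N ((isHeckeFamily_T ℓ hℓN).coc γ x) =
      dUnit N γ * deltaT ℓ hℓN x * (deltaT ℓ hℓN ((isHeckeFamily_T ℓ hℓN).perm γ x))⁻¹ := by
  obtain ⟨-, -, -, e4⟩ := entries_of_rel (val_heckeRep ℓ x) (val_heckeRep ℓ _)
    (spec_T ℓ hℓN γ x)
  rw [eq_mul_inv_iff_mul_eq]
  apply Units.ext
  rw [Units.val_mul, Units.val_mul, coe_dUnit, coe_dUnit, coe_deltaT, coe_deltaT]
  have := congrArg (Int.cast : ℤ → ZMod N) e4
  push_cast at this
  rw [lower_left_zmod, zero_mul, zero_add] at this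
  rw [← this, mul_comm]

/-- The Shimura class is an eigenvector of `T_ℓ` with eigenvalue `ℓ + 1`. -/
theorem heckeFun_T_shimura (hℓN : ¬ ℓ ∣ N) {A : Type*} [AddCommGroup A]
    (lam : Additive (ZMod N)ˣ →+ A) :
    (isHeckeFamily_T ℓ hℓN).heckeFun (shimura N lam) = (ℓ + 1) • shimura N lam := by
  refine AddMonoidHom.ext fun γ' => ?_
  obtain ⟨γ, rfl⟩ : ∃ γ : Gamma0 N, Additive.ofMul γ = γ' := ⟨Additive.toMul γ', rfl⟩
  rw [IsHeckeFamily.heckeFun_apply, AddMonoidHom.nsmul_apply, shimura_apply]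
  simp only [shimura_apply, dUnit_coc_T ℓ hℓN, ofMul_mul, ofMul_inv, map_add, map_neg,
    Finset.sum_add_distrib, Finset.sum_neg_distrib]
  have e3 : ∑ x, lam (Additive.ofMul (deltaT ℓ hℓN ((isHeckeFamily_T ℓ hℓN).perm γ x))) =
      ∑ x, lam (Additive.ofMul (deltaT ℓ hℓN x)) :=
    ((isHeckeFamily_T ℓ hℓN).permEquiv γ).sum_comp
      (fun x => lam (Additive.ofMul (deltaT ℓ hℓN x)))
  rw [e3, Finset.sum_const, Finset.card_univ]
  have hcard : Fintype.card (OnePoint (ZMod ℓ)) = ℓ + 1 := by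
    have : Fintype.card (OnePoint (ZMod ℓ)) = Fintype.card (Option (ZMod ℓ)) := rfl
    rw [this, Fintype.card_option, ZMod.card]
  rw [hcard]
  abel

end T

section U

variable (q : ℕ) [NeZero q]

theorem dUnit_coc_U (hqN : q ∣ N) (γ : Gamma0 N) (x : ZMod q) :
    dUnit N ((isHeckeFamily_U q hqN).coc γ x) = dUnit N γ := by
  obtain ⟨e1, -, -, -⟩ := entries_of_rel (val_repU q x) (val_repU q _)
    ((isHeckeFamily_U q hqN).spec γ x)
  have hsub : ∀ δ : Gamma0 N, (Gamma0 N).subtype δ = (δ : SL(2, ℤ)) := fun _ => rfl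
  rw [hsub, hsub] at e1
  set h := isHeckeFamily_U (N := N) q hqN
  apply Units.ext
  rw [coe_dUnit, coe_dUnit]
  have e := congrArg (Int.cast : ℤ → ZMod N) e1
  push_cast at e
  rw [lower_left_zmod, mul_zero, add_zero, mul_one, one_mul] at e
  have u1 := unit_of_apply_one_zero_eq_zero (γ : SL(2, ℤ)) (lower_left_zmod γ)
  have u2 := unit_of_apply_one_zero_eq_zero ((h.coc γ x : Gamma0 N) : SL(2, ℤ))
    (lower_left_zmod (h.coc γ x))
  rw [← e] at u2
  -- `c11 = c11 * (γ00 * γ11) = (γ00 * c11) * γ11 = γ11`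
  calc ((((h.coc γ x : Gamma0 N) : SL(2, ℤ)) 1 1 : ℤ) : ZMod N)
      = ((((h.coc γ x : Gamma0 N) : SL(2, ℤ)) 1 1 : ℤ) : ZMod N) *
          ((((γ : SL(2, ℤ)) 0 0 : ℤ) : ZMod N) * (((γ : SL(2, ℤ)) 1 1 : ℤ) : ZMod N)) := by
        rw [u1, mul_one]
    _ = ((((γ : SL(2, ℤ)) 0 0 : ℤ) : ZMod N) *
          ((((h.coc γ x : Gamma0 N) : SL(2, ℤ)) 1 1 : ℤ) : ZMod N)) *
            (((γ : SL(2, ℤ)) 1 1 : ℤ) : ZMod N) := by ring
    _ = (((γ : SL(2, ℤ)) 1 1 : ℤ) : ZMod N) := by rw [u2, one_mul]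

/-- The Shimura class is an eigenvector of `U_q` with eigenvalue `q`. -/
theorem heckeFun_U_shimura (hqN : q ∣ N) {A : Type*} [AddCommGroup A]
    (lam : Additive (ZMod N)ˣ →+ A) :
    (isHeckeFamily_U q hqN).heckeFun (shimura N lam) = q • shimura N lam := by
  refine AddMonoidHom.ext fun γ' => ?_
  obtain ⟨γ, rfl⟩ : ∃ γ : Gamma0 N, Additive.ofMul γ = γ' := ⟨Additive.toMul γ', rfl⟩
  rw [IsHeckeFamily.heckeFun_apply, AddMonoidHom.nsmul_apply, shimura_apply]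
  simp only [shimura_apply, dUnit_coc_U q hqN]
  rw [Finset.sum_const, Finset.card_univ, ZMod.card]

end U

/-! ### Vanishing of the Shimura class on elements of small trace, and surjectivity (`N = p`) -/

section Prime

variable {p : ℕ} [Fact p.Prime]

/-- A homomorphism from the cyclic group `(ℤ/p)ˣ` to `ℤ/n` kills every `u` with `u ^ e = 1`
as soon as `e * n ∣ p - 1`. -/
theorem lam_eq_zero_of_pow_eq_one {n : ℕ} (lam : Additive (ZMod p)ˣ →+ ZMod n) {e : ℕ}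
    (he : e * n ∣ p - 1) (u : (ZMod p)ˣ) (hu : u ^ e = 1) : lam (Additive.ofMul u) = 0 := by
  have hp : p.Prime := Fact.out
  have hp1 : p - 1 ≠ 0 := by have := hp.two_le; omega
  have he0 : e ≠ 0 := by
    rintro rfl
    rw [zero_mul, zero_dvd_iff] at he
    exact hp1 he
  obtain ⟨g, hg⟩ := IsCyclic.exists_generator (α := (ZMod p)ˣ)
  obtain ⟨k, rfl⟩ := Subgroup.mem_zpowers_iff.mp (hg u)
  have hord : orderOf g = p - 1 := by
    rw [orderOf_eq_card_of_forall_mem_zpowers hg, Nat.card_eq_fintype_card, ZMod.card_units]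
  have h1 : g ^ (k * e) = 1 := by
    rw [zpow_mul]; exact_mod_cast hu
  have h2 : ((p - 1 : ℕ) : ℤ) ∣ k * e := by
    rw [← hord]; exact orderOf_dvd_iff_zpow_eq_one.mpr h1
  have h3 : ((e * n : ℕ) : ℤ) ∣ k * e := (Int.natCast_dvd_natCast.mpr he).trans h2
  have h4 : (n : ℤ) ∣ k := by
    have he0' : (e : ℤ) ≠ 0 := by exact_mod_cast he0
    have : (e : ℤ) * n ∣ e * k := by
      rw [mul_comm (e : ℤ) k]; exact_mod_cast h3
    exact (mul_dvd_mul_iff_left he0').mp this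
  have h5 : lam (Additive.ofMul (g ^ k)) = k • lam (Additive.ofMul g) := by
    rw [ofMul_zpow, map_zsmul]
  rw [h5, zsmul_eq_mul, (ZMod.intCast_zmod_eq_zero_iff_dvd k n).mpr h4, zero_mul]

/-- Every homomorphism `(ℤ/p)ˣ → ℤ/n`, `n = (p - 1) / gcd(p - 1, 12)`, kills the elements of
order dividing `12`. -/
theorem lam_eq_zero_of_pow_twelve
    (lam : Additive (ZMod p)ˣ →+ ZMod ((p - 1) / Nat.gcd (p - 1) 12)) (u : (ZMod p)ˣ)
    (hu : u ^ 12 = 1) : lam (Additive.ofMul u) = 0 := by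
  have h12 : orderOf u ∣ 12 := orderOf_dvd_of_pow_eq_one hu
  have hcard : orderOf u ∣ p - 1 := by
    have := orderOf_dvd_card (x := u)
    rwa [ZMod.card_units] at this
  have hg : orderOf u ∣ Nat.gcd (p - 1) 12 := Nat.dvd_gcd hcard h12
  refine lam_eq_zero_of_pow_eq_one lam (e := orderOf u) ?_ u (pow_orderOf_eq_one u)
  calc orderOf u * ((p - 1) / Nat.gcd (p - 1) 12)
      ∣ Nat.gcd (p - 1) 12 * ((p - 1) / Nat.gcd (p - 1) 12) := Nat.mul_dvd_mul_right hg _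
    _ = p - 1 := Nat.mul_div_cancel' (Nat.gcd_dvd_left _ _)

/-- For `γ ∈ Γ₀(p)` of trace `0, ±1, ±2` the lower right entry is a 12-th root of unity
modulo `p`. -/
theorem dUnit_pow_twelve_of_abs_trace_le_two (γ : Gamma0 p)
    (ht : |((γ : SL(2, ℤ)) : Matrix (Fin 2) (Fin 2) ℤ).trace| ≤ 2) : dUnit p γ ^ 12 = 1 := by
  have u1 := unit_of_apply_one_zero_eq_zero (γ : SL(2, ℤ)) (lower_left_zmod γ)
  rw [Matrix.trace_fin_two] at ht
  obtain ⟨t, htdef⟩ : ∃ t : ℤ, t = (γ : SL(2, ℤ)) 0 0 + (γ : SL(2, ℤ)) 1 1 := ⟨_, rfl⟩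
  have hta : (((γ : SL(2, ℤ)) 0 0 : ℤ) : ZMod p) =
      (t : ZMod p) - (((γ : SL(2, ℤ)) 1 1 : ℤ) : ZMod p) := by
    rw [htdef]; push_cast; ring
  rw [hta] at u1
  apply Units.ext
  rw [Units.val_pow_eq_pow_val, coe_dUnit, Units.val_one]
  set d : ZMod p := (((γ : SL(2, ℤ)) 1 1 : ℤ) : ZMod p) with hd
  have hbound : -2 ≤ t ∧ t ≤ 2 := by
    rw [htdef]; exact abs_le.mp ht
  obtain ⟨hb1, hb2⟩ := hbound
  interval_cases t
  · -- `t = -2`: `(d + 1)² = 0`
    have h0 : (d + 1) ^ 2 = 0 := by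
      push_cast at u1
      linear_combination (-1 : ZMod p) * u1
    have h1 : d = -1 := by
      have := pow_eq_zero_iff (two_ne_zero) |>.mp h0
      linear_combination this
    rw [h1]; norm_num
  · -- `t = -1`: `d³ = 1`
    have h3 : d ^ 3 = 1 := by
      push_cast at u1
      linear_combination (-(d - 1)) * u1
    calc d ^ 12 = (d ^ 3) ^ 4 := by ring
      _ = 1 := by rw [h3, one_pow]
  · -- `t = 0`: `d² = -1`
    have h2 : d ^ 2 = -1 := by
      push_cast at u1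
      linear_combination (-1 : ZMod p) * u1
    calc d ^ 12 = (d ^ 2) ^ 6 := by ring
      _ = 1 := by rw [h2]; norm_num
  · -- `t = 1`: `d³ = -1`
    have h3 : d ^ 3 = -1 := by
      push_cast at u1
      linear_combination (-(d + 1)) * u1
    calc d ^ 12 = (d ^ 3) ^ 4 := by ring
      _ = 1 := by rw [h3]; norm_num
  · -- `t = 2`: `(d - 1)² = 0`
    have h0 : (d - 1) ^ 2 = 0 := by
      push_cast at u1
      linear_combination (-1 : ZMod p) * u1
    have h1 : d = 1 := by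
      have := pow_eq_zero_iff (two_ne_zero) |>.mp h0
      linear_combination this
    rw [h1, one_pow]

/-- The Shimura class with values in `ℤ/n`, `n = (p - 1) / gcd(p - 1, 12)`, vanishes on all
elements of `Γ₀(p)` of trace `0, ±1, ±2` (elliptic elements, parabolic elements and `±1`). -/
theorem shimura_eq_zero_of_abs_trace_le_two
    (lam : Additive (ZMod p)ˣ →+ ZMod ((p - 1) / Nat.gcd (p - 1) 12)) (γ : Gamma0 p)
    (ht : |((γ : SL(2, ℤ)) : Matrix (Fin 2) (Fin 2) ℤ).trace| ≤ 2) :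
    shimura p lam (Additive.ofMul γ) = 0 := by
  rw [shimura_apply]
  exact lam_eq_zero_of_pow_twelve lam _ (dUnit_pow_twelve_of_abs_trace_le_two γ ht)

/-- Parabolic version, in the shape of `ModularCurve.Period.IsParabolicHom`. -/
theorem shimura_isParabolicHom
    (lam : Additive (ZMod p)ˣ →+ ZMod ((p - 1) / Nat.gcd (p - 1) 12)) :
    ModularCurve.Period.IsParabolicHom (Gamma0 p) (shimura p lam) := by
  intro γ hγ
  refine shimura_eq_zero_of_abs_trace_le_two lam γ ?_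
  have h4 : (4 : ℤ) = 2 ^ 2 := by norm_num
  rw [h4, sq_eq_sq_iff_abs_eq_abs] at hγ
  rw [hγ]; norm_num

/-- The matrix `[[a, k], [p, d]]` of determinant one. -/
def liftSL (a k d : ℤ) (p : ℕ) (h : a * d - k * p = 1) : SL(2, ℤ) :=
  ⟨!![a, k; (p : ℤ), d], by rw [Matrix.det_fin_two_of]; exact h⟩

theorem liftSL_apply_10 (a k d : ℤ) (p : ℕ) (h : a * d - k * p = 1) :
    (liftSL a k d p h) 1 0 = (p : ℤ) := rfl

theorem liftSL_apply_11 (a k d : ℤ) (p : ℕ) (h : a * d - k * p = 1) :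
    (liftSL a k d p h) 1 1 = d := rfl

/-- `γ ↦ d_γ mod p` is onto `(ℤ/p)ˣ`. -/
theorem dUnit_surjective : Function.Surjective (dUnit p) := by
  intro u
  obtain ⟨v, hv⟩ : ∃ v : (ZMod p)ˣ, v = u⁻¹ := ⟨_, rfl⟩
  have hvu : (v : ZMod p) * (u : ZMod p) = 1 := by
    rw [← Units.val_mul, hv, inv_mul_cancel, Units.val_one]
  obtain ⟨k, hk⟩ : (p : ℤ) ∣ ((v : ZMod p).val : ℤ) * ((u : ZMod p).val : ℤ) - 1 := by
    rw [← ZMod.intCast_zmod_eq_zero_iff_dvd]
    push_cast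
    rw [ZMod.natCast_zmod_val, ZMod.natCast_zmod_val, hvu, sub_self]
  have hdet : ((v : ZMod p).val : ℤ) * ((u : ZMod p).val : ℤ) - k * p = 1 := by linarith
  have hg : liftSL _ k _ p hdet ∈ Gamma0 p := by
    rw [Gamma0_mem, liftSL_apply_10]
    simp
  refine ⟨⟨_, hg⟩, ?_⟩
  apply Units.ext
  rw [coe_dUnit]
  show (((liftSL _ k _ p hdet) 1 1 : ℤ) : ZMod p) = _
  rw [liftSL_apply_11]
  simp

/-- There is a surjective additive character `(ℤ/p)ˣ → ℤ/n` for every `n ∣ p - 1`. -/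
theorem exists_surjective_lam {n : ℕ} (hn : n ∣ p - 1) :
    ∃ lam : Additive (ZMod p)ˣ →+ ZMod n, Function.Surjective lam := by
  have hcard : Nat.card (Additive (ZMod p)ˣ) = p - 1 := by
    show Nat.card (ZMod p)ˣ = p - 1
    rw [Nat.card_eq_fintype_card, ZMod.card_units]
  have hn' : n ∣ Nat.card (Additive (ZMod p)ˣ) := hcard ▸ hn
  let e := zmodAddCyclicAddEquiv (G := Additive (ZMod p)ˣ) inferInstance
  refine ⟨(ZMod.castHom hn' (ZMod n)).toAddMonoidHom.comp e.symm.toAddMonoidHom, ?_⟩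
  exact (ZMod.castHom_surjective hn').comp e.symm.surjective

/-- The Shimura class attached to a surjective character takes the value `1`. -/
theorem exists_shimura_eq_one {n : ℕ} (hn : n ∣ p - 1) :
    ∃ lam : Additive (ZMod p)ˣ →+ ZMod n, ∃ γ : Gamma0 p,
      shimura p lam (Additive.ofMul γ) = 1 := by
  obtain ⟨lam, hlam⟩ := exists_surjective_lam (p := p) hn
  obtain ⟨u, hu⟩ := hlam 1
  obtain ⟨γ, hγ⟩ := dUnit_surjective (p := p) (Additive.toMul u)
  refine ⟨lam, γ, ?_⟩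
  rw [shimura_apply, hγ]
  exact hu

end Prime

end Fermat.Agent.S16.H27
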