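import Mathlib
import Fermat.Prelude.Def_CuspForm_HeckeEvalForms
import Fermat.Agent.S16.H27.Iota
import Fermat.Agent.S16.H27.Shimura
import Fermat.Agent.S16.H53.Shimura
import Fermat.Agent.S16.H99.PeriodHecke

/-!
# S16 / LOWER / L3 + L4a, unified interface (helper27)

One operator `HT N A ℓ` on `Hom(Γ₀(N), A)` for every prime `ℓ` (the `U` family when `ℓ ∣ N`, the
`T` family otherwise: the same case split as `CuspForm.heckeFormsGen`), together with

* `comp_HT` : naturality in the coefficient group;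
* `HT_charInvolution` : compatibility with the involution `charInvolution`;
* `HT_shimura` : the Shimura class of `Γ₀(p)` is an eigenvector with eigenvalue
  `eisensteinSystem p ℓ` (coefficients `ZMod (eisensteinNumerator p)`);
* `periodMap_heckeFormsGen` : the period map intertwines the Hecke operator on weight two cusp
  forms with `HT N ℂ ℓ`;
* `periodHomPair_heckeFormsGen` : the same for `periodHomPair`.
-/

set_option autoImplicit false

noncomputable section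

namespace Fermat.Agent.S16.H27

open CongruenceSubgroup ModularCurve ModularCurve.Period Matrix.SpecialLinearGroup ModularForm
open P2MW.S_ModularForm_heckeT_slash_eq_self_of_mem_Gamma0.ModularForm.HeckeSlashInvariance
open scoped MatrixGroups

section Def

variable (N : ℕ)

/-- The Hecke operator at the prime `ℓ` on `Hom(Γ₀(N), A)`: `U_ℓ` if `ℓ ∣ N`, `T_ℓ` otherwise. -/
def HT (A : Type*) [AddCommGroup A] (ℓ : Nat.Primes) :
    (Additive (Gamma0 N) →+ A) →+ (Additive (Gamma0 N) →+ A) :=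
  if h : (ℓ : ℕ) ∣ N then
    haveI : NeZero (ℓ : ℕ) := ⟨ℓ.2.ne_zero⟩
    ((isHeckeFamily_U (ℓ : ℕ) h).heckeLin ℤ A).toAddMonoidHom
  else
    haveI : Fact (ℓ : ℕ).Prime := ⟨ℓ.2⟩
    ((isHeckeFamily_T (ℓ : ℕ) h).heckeLin ℤ A).toAddMonoidHom

variable {N}

theorem HT_of_dvd {A : Type*} [AddCommGroup A] {ℓ : Nat.Primes} [NeZero (ℓ : ℕ)]
    (h : (ℓ : ℕ) ∣ N) (ψ : Additive (Gamma0 N) →+ A) :
    HT N A ℓ ψ = (isHeckeFamily_U (ℓ : ℕ) h).heckeFun ψ := by
  unfold HT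
  rw [dif_pos h]
  rfl

theorem HT_of_not_dvd {A : Type*} [AddCommGroup A] {ℓ : Nat.Primes} [Fact (ℓ : ℕ).Prime]
    (h : ¬ (ℓ : ℕ) ∣ N) (ψ : Additive (Gamma0 N) →+ A) :
    HT N A ℓ ψ = (isHeckeFamily_T (ℓ : ℕ) h).heckeFun ψ := by
  unfold HT
  rw [dif_neg h]
  rfl

/-- **[L3-nat]** Naturality of `HT` in the coefficient group. -/
theorem comp_HT {A B : Type*} [AddCommGroup A] [AddCommGroup B] (φ : A →+ B) (ℓ : Nat.Primes)
    (ψ : Additive (Gamma0 N) →+ A) : φ.comp (HT N A ℓ ψ) = HT N B ℓ (φ.comp ψ) := by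
  by_cases h : (ℓ : ℕ) ∣ N
  · have : NeZero (ℓ : ℕ) := ⟨ℓ.2.ne_zero⟩
    rw [HT_of_dvd h, HT_of_dvd h]
    exact (isHeckeFamily_U (ℓ : ℕ) h).comp_heckeFun φ ψ
  · have : Fact (ℓ : ℕ).Prime := ⟨ℓ.2⟩
    rw [HT_of_not_dvd h, HT_of_not_dvd h]
    exact (isHeckeFamily_T (ℓ : ℕ) h).comp_heckeFun φ ψ

/-- **[L3-inv]** `HT` commutes with the involution `charInvolution`. -/
theorem HT_charInvolution (R : Type*) [Semiring R] {A : Type*} [AddCommGroup A] [Module R A]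
    (ℓ : Nat.Primes) (ψ : Additive (Gamma0 N) →+ A) :
    HT N A ℓ (charInvolution N R A ψ) = charInvolution N R A (HT N A ℓ ψ) := by
  by_cases h : (ℓ : ℕ) ∣ N
  · have : NeZero (ℓ : ℕ) := ⟨ℓ.2.ne_zero⟩
    rw [HT_of_dvd h, HT_of_dvd h]
    exact heckeFun_U_charInvolution (ℓ : ℕ) h R ψ
  · have : Fact (ℓ : ℕ).Prime := ⟨ℓ.2⟩
    rw [HT_of_not_dvd h, HT_of_not_dvd h]
    exact heckeFun_T_charInvolution (ℓ : ℕ) h R ψ

/-- Evaluation of `HT` through any solution of the coset relation, `T` case. -/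
theorem HT_apply_of_rel_T {A : Type*} [AddCommGroup A] {ℓ : Nat.Primes} [Fact (ℓ : ℕ).Prime]
    (h : ¬ (ℓ : ℕ) ∣ N) (ψ : Additive (Gamma0 N) →+ A) (γ : Gamma0 N)
    (j : OnePoint (ZMod (ℓ : ℕ)) → OnePoint (ZMod (ℓ : ℕ)))
    (c : OnePoint (ZMod (ℓ : ℕ)) → Gamma0 N)
    (hrel : ∀ x, heckeRep (ℓ : ℕ) x * mapGL ℝ (γ : SL(2, ℤ)) =
      mapGL ℝ (c x : SL(2, ℤ)) * heckeRep (ℓ : ℕ) (j x)) :
    HT N A ℓ ψ (Additive.ofMul γ) = ∑ x, ψ (Additive.ofMul (c x)) := by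
  rw [HT_of_not_dvd h]
  exact (isHeckeFamily_T (ℓ : ℕ) h).heckeFun_apply_of_rel ψ γ j c hrel

/-- Evaluation of `HT` through any solution of the coset relation, `U` case. -/
theorem HT_apply_of_rel_U {A : Type*} [AddCommGroup A] {ℓ : Nat.Primes} [NeZero (ℓ : ℕ)]
    (h : (ℓ : ℕ) ∣ N) (ψ : Additive (Gamma0 N) →+ A) (γ : Gamma0 N)
    (j : ZMod (ℓ : ℕ) → ZMod (ℓ : ℕ)) (c : ZMod (ℓ : ℕ) → Gamma0 N)
    (hrel : ∀ x, heckeMatrix (ℓ : ℕ) x.val * mapGL ℝ (γ : SL(2, ℤ)) =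
      mapGL ℝ (c x : SL(2, ℤ)) * heckeMatrix (ℓ : ℕ) (j x).val) :
    HT N A ℓ ψ (Additive.ofMul γ) = ∑ x, ψ (Additive.ofMul (c x)) := by
  rw [HT_of_dvd h]
  exact (isHeckeFamily_U (ℓ : ℕ) h).heckeFun_apply_of_rel ψ γ j c hrel

end Def

section Period

variable {N : ℕ} [NeZero N]

/-- **[L4a]** The period map intertwines the Hecke operator at `ℓ` on weight two cusp forms with
`HT N ℂ ℓ`. -/
theorem periodMap_heckeFormsGen (ℓ : Nat.Primes) (f : CuspForm (Gamma0 N) 2) :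
    periodMap N (((CuspForm.heckeFormsGen N 2 ℓ : CuspForm.heckeAlgebra N 2 ∅) :
        Module.End ℂ (CuspForm (Gamma0 N) 2)) f) = HT N ℂ ℓ (periodMap N f) := by
  refine AddMonoidHom.ext fun γ' => ?_
  obtain ⟨γ, rfl⟩ : ∃ γ : Gamma0 N, Additive.ofMul γ = γ' := ⟨Additive.toMul γ', rfl⟩
  by_cases h : (ℓ : ℕ) ∣ N
  · have : NeZero (ℓ : ℕ) := ⟨ℓ.2.ne_zero⟩
    rw [CuspForm.heckeFormsGen_of_dvd h, CuspForm.heckeAlgebra.coe_U]
    obtain ⟨hc, c, hrel, hper⟩ := Fermat.Agent.S16.H99.periodMap_heckeULin h f γ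
    rw [hper, HT_apply_of_rel_U h (periodMap N f) γ _ c hrel]
  · have : Fact (ℓ : ℕ).Prime := ⟨ℓ.2⟩
    rw [CuspForm.heckeFormsGen_of_not_dvd h, CuspForm.heckeAlgebra.coe_T]
    obtain ⟨c, hrel, hper⟩ := Fermat.Agent.S16.H99.periodMap_heckeTLin h f γ
    rw [HT_apply_of_rel_T h (periodMap N f) γ _ c hrel]
    exact hper

/-- **[hper]** The same for `periodHomPair` (the shape consumed by the abstract LOWER core). -/
theorem periodHomPair_heckeFormsGen (ℓ : Nat.Primes) (f g : CuspForm (Gamma0 N) 2) :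
    periodHomPair N
        ((((CuspForm.heckeFormsGen N 2 ℓ : CuspForm.heckeAlgebra N 2 ∅) :
          Module.End ℂ (CuspForm (Gamma0 N) 2)) f),
         (((CuspForm.heckeFormsGen N 2 ℓ : CuspForm.heckeAlgebra N 2 ∅) :
          Module.End ℂ (CuspForm (Gamma0 N) 2)) g)) =
      HT N ℂ ℓ (periodHomPair N (f, g)) := by
  obtain ⟨pml, hpml, hdef⟩ := periodHomPair_def N (Fermat.Agent.S21.H99.existsPeriodMapLinear N)
  rw [hdef]
  simp only [LinearMap.coprod_apply, LinearMap.comp_apply, LinearMap.add_apply,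
    LinearMap.sub_apply, LinearMap.id_apply, hpml, periodMap_heckeFormsGen, map_add, map_sub,
    HT_charInvolution ℂ]

end Period

section Eisenstein

variable (p : ℕ) [Fact p.Prime]

/-- helper53's Shimura class is the one of `Shimura.lean`. -/
theorem shimura_eq (lam : (ZMod p)ˣ →* Multiplicative (ZMod (eisensteinNumerator p))) :
    Fermat.Agent.S16.H53.shimura p lam = shimura p (MonoidHom.toAdditiveLeft lam) := rfl

theorem natCast_eisensteinNumerator_eq_one :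
    ((p : ℕ) : ZMod (eisensteinNumerator p)) = 1 := by
  have hp : 1 ≤ p := (Fact.out : p.Prime).one_lt.le
  have h0 : ((p - 1 : ℕ) : ZMod (eisensteinNumerator p)) = 0 :=
    (ZMod.natCast_eq_zero_iff _ _).mpr (eisensteinNumerator_dvd p)
  have : ((p - 1 + 1 : ℕ) : ZMod (eisensteinNumerator p)) = 1 := by
    rw [Nat.cast_add, h0, Nat.cast_one, zero_add]
  rwa [Nat.sub_add_cancel hp] at this

/-- **[L3-eis]** The Shimura class is an eigenvector of every `HT p _ ℓ`, with eigenvalue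
`eisensteinSystem p ℓ` (`= ℓ + 1` for `ℓ ≠ p`, `= 1 ≡ p` for `ℓ = p`). -/
theorem HT_shimura (lam : (ZMod p)ˣ →* Multiplicative (ZMod (eisensteinNumerator p)))
    (ℓ : Nat.Primes) :
    HT p (ZMod (eisensteinNumerator p)) ℓ (Fermat.Agent.S16.H53.shimura p lam) =
      eisensteinSystem p ℓ • Fermat.Agent.S16.H53.shimura p lam := by
  rw [shimura_eq]
  by_cases h : (ℓ : ℕ) ∣ p
  · have : NeZero (ℓ : ℕ) := ⟨ℓ.2.ne_zero⟩
    have hℓp : (ℓ : ℕ) = p := (Nat.prime_dvd_prime_iff_eq ℓ.2 Fact.out).mp h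
    rw [HT_of_dvd h, heckeFun_U_shimura (ℓ : ℕ) h, eisensteinSystem_of_dvd h, one_smul]
    refine AddMonoidHom.ext fun γ => ?_
    rw [AddMonoidHom.smul_apply, nsmul_eq_mul, hℓp, natCast_eisensteinNumerator_eq_one, one_mul]
  · have : Fact (ℓ : ℕ).Prime := ⟨ℓ.2⟩
    rw [HT_of_not_dvd h, heckeFun_T_shimura (ℓ : ℕ) h, eisensteinSystem_of_not_dvd h]
    have e : (1 : ℤ) + ((ℓ : ℕ) : ℤ) = (((ℓ : ℕ) + 1 : ℕ) : ℤ) := by push_cast; ring
    rw [e, natCast_zsmul]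

end Eisenstein

end Fermat.Agent.S16.H27
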